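/-
S56, wall W3: the tame structure of the local Galois group at `q` (shared by W3a and W3b).
Owner: helper10.

`locInertia q` : the preimage in `primeLocalGaloisGroup q` of the inertia group of
`primeLocalPlace q`.
`local_tame` (T2): for a homomorphism `χ` of the local group which is trivial on the preimage of a
level of `Gal(ℚ̄/ℚ)` and maps `locInertia q` to elements of order prime to `q`: `χ(locInertia q)`
is cyclic, and `χ (φ τ φ⁻¹) = χ τ ^ q` for every Frobenius lift `φ`.
(`Lib/TameInertia/Local.lean`; the range of `primeLocalToGlobal q` is the decomposition group: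
`Lib/LocalGalois/Range.lean`.)
-/
import Fermat.Agent.Lib.TameInertia.Local
import Fermat.Agent.Lib.LocalGalois.Range
import Fermat.Agent.F4.Datum

set_option autoImplicit false

namespace Fermat.Agent.S56

open Fermat.Agent.F4 ExtCitation

/-- The preimage of the inertia group of `primeLocalPlace q` in the local Galois group. -/
noncomputable def locInertia (q : Nat.Primes) : Subgroup (primeLocalGaloisGroup q) :=
  ((primeLocalPlace q).inertiaSubgroupIn ℚ).comap (primeLocalToGlobal q)

theorem mem_locInertia {q : Nat.Primes} {τ : primeLocalGaloisGroup q} :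
    τ ∈ locInertia q ↔ primeLocalToGlobal q τ ∈ (primeLocalPlace q).inertiaSubgroupIn ℚ :=
  Iff.rfl

/-- The range of `primeLocalToGlobal q` is the decomposition group of `primeLocalPlace q`. -/
theorem range_primeLocalToGlobal (q : Nat.Primes) :
    (primeLocalToGlobal q).range = (primeLocalPlace q).decompositionSubgroup ℚ :=
  haveI : Fact (q : ℕ).Prime := ⟨q.2⟩
  Fermat.Agent.LocalGalois.range_localGaloisToGlobal (q : ℕ)

/-- Every element of the inertia group of `primeLocalPlace q` comes from the local group. -/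
theorem exists_of_mem_inertia (q : Nat.Primes) {σ : GQ}
    (hσ : σ ∈ (primeLocalPlace q).inertiaSubgroupIn ℚ) :
    ∃ τ ∈ locInertia q, primeLocalToGlobal q τ = σ := by
  have hD : σ ∈ (primeLocalPlace q).decompositionSubgroup ℚ := by
    obtain ⟨d, -, rfl⟩ := hσ
    exact d.2
  rw [← range_primeLocalToGlobal] at hD
  obtain ⟨τ, rfl⟩ := hD
  exact ⟨τ, hσ, rfl⟩

/-- Every Frobenius element at `primeLocalPlace q` comes from the local group. -/
theorem exists_of_isFrobeniusAt (q : Nat.Primes) {σ : GQ}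
    (hσ : (primeLocalPlace q).IsFrobeniusAt σ (q : ℕ)) :
    ∃ φ : primeLocalGaloisGroup q, primeLocalToGlobal q φ = σ := by
  have hD : σ ∈ (primeLocalPlace q).decompositionSubgroup ℚ := hσ.mem_decompositionSubgroup
  rw [← range_primeLocalToGlobal] at hD
  exact hD

/-- **(T2) local tame inertia.** -/
theorem local_tame (q : Nat.Primes) (hA : (primeLocalPlace q).LiesOverPrime (q : ℕ))
    {H : Type*} [Group H] (χ : primeLocalGaloisGroup q →* H)
    (hlev : ∃ U ∈ levelsAll.sets, U.comap (primeLocalToGlobal q) ≤ χ.ker)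
    (hcop : ∀ σ ∈ locInertia q, (orderOf (χ σ)).Coprime (q : ℕ)) :
    (∃ τ₀ ∈ locInertia q, ∀ σ ∈ locInertia q, ∃ n : ℕ, χ σ = χ τ₀ ^ n) ∧
    ∀ φ : primeLocalGaloisGroup q, (primeLocalPlace q).IsFrobeniusAt (primeLocalToGlobal q φ) (q : ℕ) →
      ∀ τ ∈ locInertia q, χ (φ * τ * φ⁻¹) = χ τ ^ (q : ℕ) := by
  obtain ⟨U, ⟨F, hFfd, hFst, rfl⟩, hU⟩ := hlev
  have hnor : F.fixingSubgroup.Normal := hFst.normal_fixingSubgroup
  have hker : ∀ γ : primeLocalGaloisGroup q, primeLocalToGlobal q γ ∈ F.fixingSubgroup →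
      χ γ = 1 := fun γ hγ => hU hγ
  obtain ⟨h1, h2⟩ := Fermat.Agent.TameInertia.tame_inertia_hom (primeLocalToGlobal q) χ F hFfd hnor
    hker (q : ℕ) q.2 (primeLocalPlace q) hA hcop
  refine ⟨?_, fun φ hφ τ hτ => h2 φ hφ τ hτ⟩
  obtain ⟨τ₀, hτ₀, h⟩ := h1
  exact ⟨τ₀, hτ₀, fun σ hσ => h σ hσ⟩

end Fermat.Agent.S56
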