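/-
S56, WALL W3-TW (DONE, helper67): local cohomology at a Taylor–Wiles prime.  Statement FIXED.
Proof: TW/Count.lean, TW/LinAlg.lean, TW/Asm.lean (reduction to `LocalTame q`), TW/Lies.lean,
TW/Gen.lean, W3/Tame.lean (helper10), TW/Final.lean (`localTame q`).

`q ≡ 1 mod p`, `ρbar` unramified at `q`, `ρbar(Frob_q) ~ diag(α, β)`, `α ≠ β`.  Then
`ad⁰ρbar = k ⊕ k(α/β) ⊕ k(β/α)` as a `G_{ℚ_q}`-module, `H⁰ = k` and `#H¹(G_{ℚ_q}, ad⁰ρbar) ≤ |k|²`.
Elementary proof: a level-constant cocycle `c` together with `ρbar` factors through a finite quotient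
of `G_{ℚ_q}` in which the image of inertia is a `p`-group (`ρbar` is unramified), hence of order
prime to `q`: by `Fermat.Agent.TameInertia.tame_inertia` (Lib/TameInertia/Main.lean) the image of inertia is
cyclic, generated by `τ`, and `φ τ φ⁻¹ = τ^q` for a Frobenius lift `φ`.  So the class of `c` is
determined by `(c τ, c φ mod (φ - 1))`, `c τ` is fixed by inertia (all of `ad⁰`), and the relation
`φ τ φ⁻¹ = τ^q`, `q = 1` in `k`, gives `(φ - 1) c(τ) = 0`, i.e. `c τ ∈ k·H`; `c φ ∈ ad⁰/(φ-1) ≅ k`.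
The image of `primeLocalToGlobal q` is the decomposition group of `primeLocalPlace q`
(F4/Loc/Datum/Open.lean, Lib/FrobDensity/Bridge.lean).
-/
import Fermat.Agent.S56.Local.Walls
import Fermat.Agent.S56.W3.TW.Final

set_option autoImplicit false

namespace Fermat.Agent.S56

open Fermat.Agent.F4 ExtCitation

/-- **W3-TW**: at a Taylor–Wiles prime `#H¹(G_q, ad⁰ρbar) ≤ |k| · #H⁰(G_q, ad⁰ρbar)`. -/
theorem localBound_TW {k : Type} [Field k] [Finite k] (p : ℕ) [Fact p.Prime]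
    (hpk : (p : k) = 0) (ρbar : ResidualGaloisRep k) (S : Finset ℕ) (q : Nat.Primes)
    (hq : IsTWPrime p 0 ρbar S (q : ℕ)) (hunr : ρbar.IsUnramifiedAt (q : ℕ)) :
    Finite (H1loc (ad0 ρbar) q) ∧
      Nat.card (H1loc (ad0 ρbar) q) ≤ Nat.card k * Nat.card (H0loc (ad0 ρbar) q) :=
  localBound_TW_of p hpk ρbar S q (localTame q) hq hunr

end Fermat.Agent.S56
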