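/-
S56, WALL W3-unip: the local condition at a ramified prime `v ≠ p` (unipotent inertia).
Statement FIXED (architect helper82); proof: helper10.

Proof.  `ρbar` is ramified at `v`, so at the place `A = primeLocalPlace v` (all places over `v` are
conjugate).  Take
  `L = ker (H¹(G_v, ad⁰) → H¹(I_v, ad⁰))` = classes with a cocycle representative vanishing on inertia
(`UnipCount.unrClasses`, `I_v = locInertia v`).
(1) `res_v x ∈ L` for a tangent class `x = [c]`, `ρ ≅ (1 + ε c) ρbar` with unipotent inertia: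
    `ρ(I_A)` is a `p`-group, hence cyclic (Lib/TameInertia), generated by `ρ(τ₀)`;
    `u = ρbar(τ₀) = 1 + n`, `n² = 0`, `n ≠ 0`, `tr (c(τ₀) n) = 0`, so `c(τ₀) = u m u⁻¹ - m` with
    `tr m = 0` (`p` odd), and `c - d m` vanishes on `I_A`   (Unip/Tangent.lean, Unip/LinAlg.lean).
(2) `#L ≤ #H⁰(G_v, ad⁰)`: a cocycle vanishing on `I_v` has values in `X = (ad⁰)^{I_v}` and is
    determined by its value at a Frobenius lift `φ` (`TWGen.exists_frob_gen`, helper67); its class is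
    determined by `c φ` modulo `(φ - 1) X`, and `#X/(φ - 1)X = #X^φ`   (Unip/Count.lean).
-/
import Fermat.Agent.S56.Local.Walls
import Fermat.Prelude.Def_GaloisRep_LocalConditions
import Fermat.Agent.S56.W3.Unip.Count
import Fermat.Agent.S56.W3.Unip.Tangent
import Fermat.Agent.S56.W3.Tame
import Fermat.Agent.S56.W3.TW.Asm
import Fermat.Agent.S56.W3.TW.Gen
import Fermat.Agent.S56.W3.TW.Lies
import Fermat.Agent.Lib.FF.PlacesQbar
import Fermat.Agent.Lib.KFin.Inertia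

set_option autoImplicit false

namespace Fermat.Agent.S56

open Fermat.Agent.F4 ExtCitation IsLocalRing
open scoped Pointwise

/-- `locInertia v` is a normal subgroup of the local Galois group. -/
theorem locInertia_normal (v : Nat.Primes) : (locInertia v).Normal := by
  refine ⟨fun τ hτ g => ?_⟩
  rw [mem_locInertia] at hτ ⊢
  have hg : primeLocalToGlobal v g ∈ (primeLocalPlace v).decompositionSubgroup ℚ := by
    rw [← range_primeLocalToGlobal]
    exact ⟨g, rfl⟩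
  have h1 : primeLocalToGlobal v g • primeLocalPlace v = primeLocalPlace v :=
    MulAction.mem_stabilizer_iff.mp hg
  have h2 := Fermat.Agent.KFin.kf_conj_mem_inertiaSubgroupIn (K := ℚ) (primeLocalPlace v)
    (primeLocalToGlobal v g) (primeLocalToGlobal v τ) hτ
  rw [h1] at h2
  rw [map_mul, map_mul, map_inv]
  exact h2

/-- A residual representation ramified at `v` is ramified at every place over `v`. -/
theorem exists_ramified_at_place {k : Type} [Field k] (ρbar : ResidualGaloisRep k) (v : ℕ)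
    (hv : v.Prime) (hram : ¬ ρbar.IsUnramifiedAt v)
    (A : ValuationSubring (AlgebraicClosure ℚ)) (hA : A.LiesOverPrime v) :
    ∃ σ ∈ A.inertiaSubgroupIn ℚ, ρbar.ρ σ ≠ 1 := by
  have : Fact v.Prime := ⟨hv⟩
  by_contra hcon
  apply hram
  intro A' hA' σ hσ
  obtain ⟨g, hg⟩ := Fermat.Agent.FF.exists_smul_eq_of_liesOverPrime A' A hA' hA
  have h2 := Fermat.Agent.KFin.kf_conj_mem_inertiaSubgroupIn (K := ℚ) A' g σ hσ
  rw [hg] at h2
  by_contra hσ1
  apply hcon
  refine ⟨g * σ * g⁻¹, h2, fun h => hσ1 ?_⟩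
  rw [map_mul, map_mul] at h
  have h3 : ρbar.ρ g⁻¹ * ρbar.ρ g = 1 := by rw [← map_mul, inv_mul_cancel, map_one]
  calc ρbar.ρ σ = (ρbar.ρ g⁻¹ * ρbar.ρ g) * ρbar.ρ σ * (ρbar.ρ g⁻¹ * ρbar.ρ g) := by
        rw [h3, one_mul, mul_one]
    _ = ρbar.ρ g⁻¹ * (ρbar.ρ g * ρbar.ρ σ * ρbar.ρ g⁻¹) * ρbar.ρ g := by simp only [mul_assoc]
    _ = 1 := by rw [h, mul_one, h3]

/-- **W3-unip**: at a ramified prime `v ≠ p` the tangent classes with unipotent inertia are
unramified classes, and there are at most `#H⁰(G_v, ad⁰ρbar)` of them. -/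
theorem localWall_unip {𝒪 : Type} [CommRing 𝒪] [IsLocalRing 𝒪] [Finite (ResidueField 𝒪)]
    (p : ℕ) [Fact p.Prime] (hp2 : p ≠ 2) (ρbar : ResidualGaloisRep (ResidueField 𝒪))
    (hdet : (GaloisRepAdic.ofResidualGaloisRep ρbar).DetIsCyclotomic p)
    (𝒟 : ∀ ⦃A : Type⦄ [CommRing A] [IsLocalRing A] [Algebra 𝒪 A], GaloisRepAdic A → Prop)
    (v : Nat.Primes) (hvp : (v : ℕ) ≠ p) (hram : ¬ ρbar.IsUnramifiedAt (v : ℕ))
    (h𝒟 : ∀ ⦃A : Type⦄ [CommRing A] [IsLocalRing A] [Algebra 𝒪 A] (ρ : GaloisRepAdic A),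
      𝒟 ρ → ρ.DetIsCyclotomic p ∧ ρ.IsUnipotentOnInertiaAt (v : ℕ)) :
    LocalWall (ad0 ρbar) (TangentClasses 𝒪 ρbar 𝒟) v 1 := by
  classical
  have hpk : (p : ResidueField 𝒪) = 0 := by
    have h := hdet.1
    have hbot : IsLocalRing.maximalIdeal (ResidueField 𝒪) = ⊥ :=
      (Ideal.eq_bot_or_top _).resolve_right (Ideal.IsMaximal.ne_top inferInstance)
    rw [hbot] at h
    exact h
  have hlies : (primeLocalPlace v).LiesOverPrime (v : ℕ) :=
    Fermat.Agent.S56.primeLocalPlace_liesOverPrime v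
  have hramA := exists_ramified_at_place ρbar (v : ℕ) v.2 hram (primeLocalPlace v) hlies
  obtain ⟨φ, -, hgen⟩ := TWGen.exists_frob_gen v
  obtain ⟨U₀, hU₀, hU₀ρ⟩ := exists_level_ρ_eq_one ρbar
  -- finiteness of `ad⁰`
  have : Finite ρbar.V := Module.finite_of_finite (ResidueField 𝒪)
  have : Finite (Module.End (ResidueField 𝒪) ρbar.V) :=
    Module.finite_of_finite (ResidueField 𝒪)
  have hfinM : Finite (ad0 ρbar) := by
    show Finite ↥(ad0Sub ρbar)
    infer_instance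
  have : Finite (locRep (ad0 ρbar) v) := hfinM
  have hsm : ∃ U ∈ (locLevelsAll v).sets, ∀ g ∈ U, ∀ m : locRep (ad0 ρbar) v,
      (locRep (ad0 ρbar) v).ρ g m = m :=
    ⟨U₀.comap (primeLocalToGlobal v), ⟨U₀, hU₀, rfl⟩, fun g hg m =>
      ad0_ρ_eq_self_of_eq_one ρbar (hU₀ρ _ hg) m⟩
  have hgen' : ∀ U ∈ (locLevelsAll v).sets, ∀ g : primeLocalGaloisGroup v,
      ∃ (n : ℕ) (τ : primeLocalGaloisGroup v), τ ∈ locInertia v ∧ g⁻¹ * (φ ^ n * τ) ∈ U := by
    rintro _ ⟨U, hU, rfl⟩ g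
    exact hgen U hU g
  have hH0 : ∀ m : locRep (ad0 ρbar) v,
      (∀ g : primeLocalGaloisGroup v, (locRep (ad0 ρbar) v).ρ g m = m) →
        m ∈ H0loc (ad0 ρbar) v := fun m hm g => hm g
  obtain ⟨hfin, hcard⟩ := UnipCount.card_unrClasses_le (𝓤 := locLevelsAll v)
    (M := locRep (ad0 ρbar) v) (locInertia v) (locInertia_normal v) φ hsm hgen'
    (H0loc (ad0 ρbar) v) hH0
  refine ⟨UnipCount.unrClasses (locLevelsAll v) (locRep (ad0 ρbar) v) (locInertia v), ?_, hfin,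
    ?_⟩
  · rintro x ⟨c, rfl, ρ, hρ, hdef⟩
    have h𝒟ρ := @h𝒟 (DualNumber (ResidueField 𝒪)) _ _ (Fermat.Agent.S53.dualNumberAlgebra 𝒪) ρ
      hρ.1
    obtain ⟨m, hm⟩ := UnipTan.exists_coboundary_on_inertia p hp2 hpk ρbar (v : ℕ) v.2 hvp
      (primeLocalPlace v) hlies hramA c.1 c.2.1 ρ hdef h𝒟ρ.2
    -- the coboundary of `m`, as a smooth cocycle of the local group
    let b : ↥(Z1 (locLevelsAll v) (locRep (ad0 ρbar) v)) :=
      ⟨(groupCohomology.d₀₁ (locRep (ad0 ρbar) v)).hom m,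
        groupCohomology.d₀₁_apply_mem_cocycles₁ (A := locRep (ad0 ρbar) v) m,
        U₀.comap (primeLocalToGlobal v), ⟨U₀, hU₀, rfl⟩, fun g s hs => by
          show (locRep (ad0 ρbar) v).ρ (g * s) m - m = (locRep (ad0 ρbar) v).ρ g m - m
          rw [map_mul, Module.End.mul_apply]
          have : (locRep (ad0 ρbar) v).ρ s m = m :=
            ad0_ρ_eq_self_of_eq_one ρbar (hU₀ρ _ hs) m
          rw [this]⟩
    have hb : H1smπ (locLevelsAll v) (locRep (ad0 ρbar) v) b = 0 :=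
      (Submodule.Quotient.mk_eq_zero _).2 ⟨m, rfl⟩
    refine ⟨Z1res levelsAll (ad0 ρbar) (primeLocalToGlobal v) c - b, ?_, ?_⟩
    · intro τ hτ
      show (c : GQ → ad0 ρbar) (primeLocalToGlobal v τ)
        - ((ad0 ρbar).ρ (primeLocalToGlobal v τ) m - m) = 0
      rw [hm _ hτ, sub_self]
    · rw [map_sub, hb, sub_zero]
      rfl
  · rw [one_mul]
    exact hcard

end Fermat.Agent.S56
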