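/-
S56, WALL W3-SO: the strict-ordinary local condition at `p`.  Statement FIXED (architect helper82).
Owner: helper25 (sub-architect); pieces in `S56/W3/SO/`:
  `Defs` (definitions), `Tri` (triangular 2x2 algebra), `Count` (counting argument, helper25),
  `PadicPow` (helper46, helper70), `KummerFp` (helper89), `CycLoc` (helper30), `Kummer` (helper91),
  `Tangent` (helper2), `Place` (helper89).

Proof.  If no deformation of type `𝒟` to `k[ε]` exists take `L = ⊥`.  Otherwise `ρbar` is triangular at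
`P₀ = primeLocalPlace p` for a basis `w` (`so_exists_soTri`), every tangent cocycle is, up to a
coboundary, `W0 w`-valued on the decomposition group (`so_tangent_normal_form`), so its restriction
lies in `Lw` = the classes of the `W0 w`-valued local cocycles, and `#Lw ≤ |k| · #H⁰`
(`card_Lw_le`: local Kummer theory `#H¹(ℚ_p, k(ω)) ≤ |k|²` + the coboundaries of the triangular
trace-zero endomorphisms; no case distinction split / non-split).
-/
import Fermat.Agent.S56.W3.SO.Count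
import Fermat.Agent.S56.W3.SO.Tangent
import Fermat.Agent.S56.W3.SO.Place

set_option autoImplicit false

namespace Fermat.Agent.S56

open Fermat.Agent.F4 ExtCitation IsLocalRing

/-- **W3-SO**: the strict-ordinary tangent classes at `p` lie in a subgroup with at most
`|k| · #H⁰(D_p, ad⁰ρbar)` elements. -/
theorem localWall_SO {𝒪 : Type} [CommRing 𝒪] [IsLocalRing 𝒪] [Finite (ResidueField 𝒪)]
    (p : ℕ) [Fact p.Prime] (hp2 : p ≠ 2) (ρbar : ResidualGaloisRep (ResidueField 𝒪))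
    (hdet : (GaloisRepAdic.ofResidualGaloisRep ρbar).DetIsCyclotomic p)
    (𝒟 : ∀ ⦃A : Type⦄ [CommRing A] [IsLocalRing A] [Algebra 𝒪 A], GaloisRepAdic A → Prop)
    (h𝒟 : ∀ ⦃A : Type⦄ [CommRing A] [IsLocalRing A] [Algebra 𝒪 A] (ρ : GaloisRepAdic A),
      𝒟 ρ → ρ.DetIsCyclotomic p ∧ ρ.IsStrictOrdinaryAt p) :
    LocalWall (ad0 ρbar) (TangentClasses 𝒪 ρbar 𝒟) (pPrime p)
      (Nat.card (ResidueField 𝒪)) := by
  classical
  have hpk : (p : ResidueField 𝒪) = 0 := by
    have h1 := hdet.1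
    rw [IsLocalRing.mem_maximalIdeal, mem_nonunits_iff, isUnit_iff_ne_zero, not_not] at h1
    exact h1
  have hfinM : Finite (ad0 ρbar) :=
    Module.finite_of_finite (ResidueField 𝒪) (M := ↥(ad0Sub ρbar))
  by_cases hT : (TangentClasses 𝒪 ρbar 𝒟).Nonempty
  · obtain ⟨x₀, c₀, -, ρ₀, hρ₀, hdef₀⟩ := hT
    have hP := SO.so_liesOver p
    obtain ⟨w, hw⟩ := SO.so_exists_soTri p ρbar (primeLocalPlace (pPrime p)) hP c₀.1 ρ₀ hdef₀
      (@h𝒟 _ _ _ (Fermat.Agent.S53.dualNumberAlgebra 𝒪) ρ₀ hρ₀.1).2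
    obtain ⟨hfin, hcard⟩ := SO.card_Lw_le hp2 hpk hw
    refine ⟨SO.Lw p ρbar w, ?_, hfin, hcard⟩
    rintro x ⟨c, rfl, ρ, hρ, hdef⟩
    obtain ⟨m, hm⟩ := SO.so_tangent_normal_form p hp2 hpk ρbar (primeLocalPlace (pPrime p)) hP w hw
      c.1 ρ hdef (@h𝒟 _ _ _ (Fermat.Agent.S53.dualNumberAlgebra 𝒪) ρ hρ.1).2
    -- the restricted cocycle and its modification by the coboundary of `m`
    let cl : ↥(Z1 (locLevelsAll (pPrime p)) (SO.Mloc p ρbar)) :=
      Z1res levelsAll (ad0 ρbar) (primeLocalToGlobal (pPrime p)) c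
    let dm : ↥(Z1 (locLevelsAll (pPrime p)) (SO.Mloc p ρbar)) :=
      ⟨δ0 (SO.Mloc p ρbar) m, groupCohomology.d₀₁_apply_mem_cocycles₁ _,
        isLC₁_δ0 (SO.isSmooth_Mloc p ρbar) _⟩
    have hmem : cl + dm ∈ SO.Zw p ρbar w := fun γ =>
      hm _ (SO.locp_mem_decomposition p γ)
    have hdm : H1smπ (locLevelsAll (pPrime p)) (SO.Mloc p ρbar) dm = 0 := by
      rw [H1smπ, Submodule.mkQ_apply, Submodule.Quotient.mk_eq_zero, Submodule.mem_comap]
      exact ⟨m, rfl⟩
    have hres : resLoc (ad0 ρbar) (pPrime p) (H1smπ levelsAll (ad0 ρbar) c) =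
        H1smπ (locLevelsAll (pPrime p)) (SO.Mloc p ρbar) cl := rfl
    refine ⟨⟨cl + dm, hmem⟩, ?_⟩
    show H1smπ (locLevelsAll (pPrime p)) (SO.Mloc p ρbar) (cl + dm) = _
    rw [map_add, hdm, add_zero, hres]
  · refine ⟨⊥, fun x hx => (hT ⟨x, hx⟩).elim, inferInstance, ?_⟩
    rw [AddSubgroup.card_bot]
    exact Nat.one_le_iff_ne_zero.mpr (Nat.mul_ne_zero Nat.card_pos.ne' Nat.card_pos.ne')

end Fermat.Agent.S56
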